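/-
DELTA / I6, package (L) (helper5), file 1: **definitions**.

* `dllPsi 𝔓 M : Ω[Ē_M⁄k] →ₗ[Ē_M] k((q))`, the `q`-expansion of a differential of the reduced
  modular function field `Ē_M = tbBarF 𝔓 M`: `dllPsi (D y) = θ y`, `θ = q d/dq`;
* `dllCoeffZ M g n : ℤ`, the integer `q`-coefficients of a form of the integral lattice, and
  `dleRedForm 𝔓 M g : k((q))`, the coefficientwise reduction of an integral cusp form.
-/
import Mathlib
import Fermat.Prelude.Def_CuspForm_IntegralStructure
import Fermat.Agent.Lib.T1.Inst.Level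
import Fermat.Agent.Lib.Igusa.DeltaQuot
import Fermat.Agent.Lib.S23.DictSpan
import Fermat.Agent.Lib.Helper8.HeckeQCoeff

set_option autoImplicit false
set_option linter.unusedSectionVars false
set_option linter.unusedVariables false
set_option linter.style.haveILetI false
set_option synthInstance.maxHeartbeats 400000

namespace Fermat.Agent.Delta

open ModularCurve HahnSeries Fermat.Agent.T1 Fermat.Agent.S23Lib Fermat.Agent.Igusa
  Fermat.Agent.TW KaehlerDifferential ModularFormClass CongruenceSubgroup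

local notation "Qb" => AlgebraicClosure ℚ

noncomputable section

/-! ### `θ` as a derivation of a subfield of `k((q))` -/

section Generic

variable {k : Type*} [Field k] (S : IntermediateField k (LaurentSeries k))

theorem dll_coe_smul (c : k) (y : ↥S) :
    ((c • y : ↥S) : LaurentSeries k) = HahnSeries.C c * (y : LaurentSeries k) := by
  rw [IntermediateField.coe_smul, Algebra.smul_def, HahnSeries.C_apply,
    ← ModularCurve.algebraMap_laurentSeries_eq_single]

/-- the scalar tower `k ⊂ S ⊂ k((q))` for the coefficientwise `k`-action on `k((q))` -/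
theorem dll_isScalarTower : IsScalarTower k ↥S (LaurentSeries k) where
  smul_assoc c y s := by
    show ((c • y : ↥S) : LaurentSeries k) * s = c • ((y : LaurentSeries k) * s)
    rw [dll_coe_smul, mul_assoc, HahnSeries.C_mul_eq_smul]

/-- `θ = q d/dq` as a `k`-derivation `S → k((q))` -/
def dllDerS : Derivation k ↥S (LaurentSeries k) where
  toFun y := qTheta (y : LaurentSeries k)
  map_add' a b := qTheta_add _ _
  map_smul' c y := by
    rw [dll_coe_smul, qTheta_mul, qTheta_C, zero_mul, zero_add, HahnSeries.C_mul_eq_smul]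
    rfl
  map_one_eq_zero' := by
    show qTheta ((1 : ↥S) : LaurentSeries k) = 0
    rw [IntermediateField.coe_one, ← map_one (HahnSeries.C), qTheta_C]
  leibniz' a b := by
    show qTheta ((a * b : ↥S) : LaurentSeries k) =
      (a : LaurentSeries k) * qTheta _ + (b : LaurentSeries k) * qTheta _
    rw [IntermediateField.coe_mul, qTheta_mul]
    ring

theorem dllDerS_apply (y : ↥S) : dllDerS S y = qTheta (y : LaurentSeries k) := rfl

/-- the `q`-expansion of a differential of `S / k` -/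
def dllPsiS : Ω[↥S⁄k] →ₗ[↥S] LaurentSeries k :=
  haveI := dll_isScalarTower S
  (dllDerS S).liftKaehlerDifferential

theorem dllPsiS_D (y : ↥S) : dllPsiS S (D k ↥S y) = qTheta (y : LaurentSeries k) := by
  haveI := dll_isScalarTower S
  rw [dllPsiS, Derivation.liftKaehlerDifferential_comp_D]
  rfl

theorem dllPsiS_smul_D (h y : ↥S) :
    dllPsiS S (h • D k ↥S y) = (h : LaurentSeries k) * qTheta (y : LaurentSeries k) := by
  rw [map_smul, dllPsiS_D]
  rfl

/-- `Ψ` is `k`-homogeneous -/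
theorem dllPsiS_smul_const (c : k) (ω : Ω[↥S⁄k]) : dllPsiS S (c • ω) = c • dllPsiS S ω := by
  haveI := dll_isScalarTower S
  exact LinearMap.map_smul_of_tower (dllPsiS S) c ω

end Generic

variable (𝔓 : FFPlace) (M : ℕ) [NeZero M]

/-! ### The `q`-expansion of a differential of the reduced modular function field -/

/-- the `q`-expansion of a differential: `Ψ(D y) = θ y` -/
def dllPsi : Ω[↥(tbBarF 𝔓 M)⁄(IsLocalRing.ResidueField ↥𝔓.P)] →ₗ[↥(tbBarF 𝔓 M)]
    LaurentSeries (IsLocalRing.ResidueField ↥𝔓.P) :=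
  dllPsiS (tbBarF 𝔓 M)

theorem dllPsi_D (y : ↥(tbBarF 𝔓 M)) :
    dllPsi 𝔓 M (D (IsLocalRing.ResidueField ↥𝔓.P) ↥(tbBarF 𝔓 M) y) =
      qTheta (y : LaurentSeries (IsLocalRing.ResidueField ↥𝔓.P)) :=
  dllPsiS_D _ y

theorem dllPsi_smul_D (h y : ↥(tbBarF 𝔓 M)) :
    dllPsi 𝔓 M (h • D (IsLocalRing.ResidueField ↥𝔓.P) ↥(tbBarF 𝔓 M) y) =
      (h : LaurentSeries (IsLocalRing.ResidueField ↥𝔓.P)) *
        qTheta (y : LaurentSeries (IsLocalRing.ResidueField ↥𝔓.P)) :=
  dllPsiS_smul_D _ h y

/-- `Ψ` is `k`-homogeneous -/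
theorem dllPsi_smul_const (c : IsLocalRing.ResidueField ↥𝔓.P)
    (ω : Ω[↥(tbBarF 𝔓 M)⁄(IsLocalRing.ResidueField ↥𝔓.P)]) :
    dllPsi 𝔓 M (c • ω) = c • dllPsi 𝔓 M ω :=
  dllPsiS_smul_const _ c ω

/-! ### Reduction of integral cusp forms -/

omit [NeZero M] in
/-- the forms of the integral lattice have integer `q`-coefficients -/
theorem dll_qCoeff_int {g : CuspForm (Gamma0 M) 2} (hg : g ∈ CuspForm.intLattice M 2) (n : ℕ) :
    ∃ m : ℤ, qCoeff g n = (m : ℂ) :=
  (Fermat.Agent.Lib.Helper8.h8_mem_intLattice_iff g).mp hg n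

/-- the integer `q`-coefficients of a form of the integral lattice (`0` if not an integer) -/
def dllCoeffZ (g : CuspForm (Gamma0 M) 2) (n : ℕ) : ℤ :=
  letI := Classical.propDecidable
  if h : ∃ m : ℤ, qCoeff g n = (m : ℂ) then h.choose else 0

omit [NeZero M] in
theorem dllCoeffZ_spec {g : CuspForm (Gamma0 M) 2} (hg : g ∈ CuspForm.intLattice M 2) (n : ℕ) :
    qCoeff g n = (dllCoeffZ M g n : ℂ) := by
  have h := dll_qCoeff_int M hg n
  rw [dllCoeffZ, dif_pos h]
  exact h.choose_spec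

omit [NeZero M] in
theorem dllCoeffZ_eq {g : CuspForm (Gamma0 M) 2} {n : ℕ} {m : ℤ} (h : qCoeff g n = (m : ℂ)) :
    dllCoeffZ M g n = m := by
  have h' : ∃ m : ℤ, qCoeff g n = (m : ℂ) := ⟨m, h⟩
  have h2 := h'.choose_spec
  rw [dllCoeffZ, dif_pos h']
  have h3 : ((h'.choose : ℤ) : ℂ) = (m : ℂ) := h2.symm.trans h
  exact_mod_cast h3

/-- **the coefficientwise reduction of an integral cusp form** -/
def dleRedForm (g : CuspForm (Gamma0 M) 2) : LaurentSeries (IsLocalRing.ResidueField ↥𝔓.P) :=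
  HahnSeries.ofPowerSeries ℤ (IsLocalRing.ResidueField ↥𝔓.P)
    (PowerSeries.mk fun n => ((dllCoeffZ M g n : ℤ) : IsLocalRing.ResidueField ↥𝔓.P))

omit [NeZero M] in
theorem dleRedForm_coeff_nat (g : CuspForm (Gamma0 M) 2) (n : ℕ) :
    (dleRedForm 𝔓 M g).coeff (n : ℤ) =
      ((dllCoeffZ M g n : ℤ) : IsLocalRing.ResidueField ↥𝔓.P) := by
  rw [dleRedForm, HahnSeries.ofPowerSeries_apply_coeff, PowerSeries.coeff_mk]

omit [NeZero M] in
theorem dleRedForm_coeff_neg (g : CuspForm (Gamma0 M) 2) {n : ℤ} (hn : n < 0) :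
    (dleRedForm 𝔓 M g).coeff n = 0 :=
  ModularCurve.ofPowerSeries_coeff_of_neg _ hn

end

end Fermat.Agent.Delta
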