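/-
DELTA / I6, package (L), part (A) (helper3): **the reductions of a `ℤ`-basis of the integral lattice
`intLattice M 2` are linearly independent over the residue field**.

* `dllRedZ M R : ↥(intLattice M 2) →ₗ[ℤ] R((q))`, the coefficientwise reduction as a `ℤ`-linear map;
* `dll_saturated`   : the lattice is saturated (`p ∣` all coefficients of `f` ⇒ `f ∈ p L`);
* `dll_indep_basis` : for a `ℤ`-basis `b` of the lattice, `(dleRedForm 𝔓 M (b i))_i` is `κ`-independent;
* `dll_indep`       : helper5's form (`n ≥ dim S₂(M)` forms with independent reductions).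
-/
import Mathlib
import Fermat.Agent.Lib.Delta.Lift.Defs
import Fermat.Agent.Lib.ES.DictLinIndep
import Fermat.Agent.Lib.T1.Kron.Rep
import Fermat.Agent.Lib.S23.DictFinal
import Fermat.Prelude.Def_CuspForm_HeckeLocal

set_option autoImplicit false
set_option linter.unusedSectionVars false
set_option linter.unusedVariables false
set_option linter.style.haveILetI false
set_option synthInstance.maxHeartbeats 400000

namespace Fermat.Agent.Delta

open ModularCurve HahnSeries Fermat.Agent.T1 Fermat.Agent.S23Lib Fermat.Agent.TW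
  ModularFormClass CongruenceSubgroup Fermat.Agent.Lib.Helper8 Module

local notation "Qb" => AlgebraicClosure ℚ

noncomputable section

variable (M : ℕ) [NeZero M]

/-! ### The integer coefficients are `ℤ`-linear on the lattice -/

theorem dllCoeffZ_add {f g : CuspForm (Gamma0 M) 2} (hf : f ∈ CuspForm.intLattice M 2)
    (hg : g ∈ CuspForm.intLattice M 2) (n : ℕ) :
    dllCoeffZ M (f + g) n = dllCoeffZ M f n + dllCoeffZ M g n := by
  apply dllCoeffZ_eq
  rw [h8_qCoeff_add, dllCoeffZ_spec M hf, dllCoeffZ_spec M hg, Int.cast_add]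

theorem dllCoeffZ_zsmul (c : ℤ) {f : CuspForm (Gamma0 M) 2} (hf : f ∈ CuspForm.intLattice M 2)
    (n : ℕ) : dllCoeffZ M (c • f) n = c * dllCoeffZ M f n := by
  apply dllCoeffZ_eq
  rw [h8_qCoeff_zsmul, dllCoeffZ_spec M hf, Int.cast_mul]

/-- the coefficientwise reduction of the integral lattice into `R((q))` -/
def dllRedZ (R : Type*) [CommRing R] : ↥(CuspForm.intLattice M 2) →ₗ[ℤ] LaurentSeries R where
  toFun f := HahnSeries.ofPowerSeries ℤ R
    (PowerSeries.mk fun n => ((dllCoeffZ M (f : CuspForm (Gamma0 M) 2) n : ℤ) : R))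
  map_add' f g := by
    rw [← map_add]
    congr 1
    ext n
    rw [map_add, PowerSeries.coeff_mk, PowerSeries.coeff_mk, PowerSeries.coeff_mk,
      Submodule.coe_add, dllCoeffZ_add M f.2 g.2, Int.cast_add]
  map_smul' c f := by
    ext n
    rw [RingHom.id_apply, HahnSeries.coeff_smul]
    by_cases hn : 0 ≤ n
    · obtain ⟨m, rfl⟩ := Int.eq_ofNat_of_zero_le hn
      rw [HahnSeries.ofPowerSeries_apply_coeff, HahnSeries.ofPowerSeries_apply_coeff,
        PowerSeries.coeff_mk, PowerSeries.coeff_mk, Submodule.coe_smul,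
        dllCoeffZ_zsmul M c f.2, Int.cast_mul, zsmul_eq_mul]
    · rw [ModularCurve.ofPowerSeries_coeff_of_neg _ (not_le.mp hn),
        ModularCurve.ofPowerSeries_coeff_of_neg _ (not_le.mp hn), smul_zero]

theorem dllRedZ_coeff_nat (R : Type*) [CommRing R] (f : ↥(CuspForm.intLattice M 2)) (n : ℕ) :
    (dllRedZ M R f).coeff (n : ℤ) = ((dllCoeffZ M (f : CuspForm (Gamma0 M) 2) n : ℤ) : R) := by
  show (HahnSeries.ofPowerSeries ℤ R _).coeff (n : ℤ) = _
  rw [HahnSeries.ofPowerSeries_apply_coeff, PowerSeries.coeff_mk]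

theorem dllRedZ_coeff_neg (R : Type*) [CommRing R] (f : ↥(CuspForm.intLattice M 2)) {n : ℤ}
    (hn : n < 0) : (dllRedZ M R f).coeff n = 0 :=
  ModularCurve.ofPowerSeries_coeff_of_neg _ hn

theorem dllRedZ_eq_dleRedForm (𝔓 : FFPlace) (f : ↥(CuspForm.intLattice M 2)) :
    dllRedZ M (IsLocalRing.ResidueField ↥𝔓.P) f = dleRedForm 𝔓 M (f : CuspForm (Gamma0 M) 2) := rfl

/-- base change of the coefficientwise reduction -/
theorem dll_coeffMap_redZ {R S : Type*} [CommRing R] [CommRing S] (φ : R →+* S)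
    (f : ↥(CuspForm.intLattice M 2)) : coeffMap φ (dllRedZ M R f) = dllRedZ M S f := by
  ext n
  rw [coeffMap_coeff]
  by_cases hn : 0 ≤ n
  · obtain ⟨m, rfl⟩ := Int.eq_ofNat_of_zero_le hn
    rw [dllRedZ_coeff_nat, dllRedZ_coeff_nat, map_intCast]
  · rw [dllRedZ_coeff_neg M R f (not_le.mp hn), dllRedZ_coeff_neg M S f (not_le.mp hn), map_zero]

/-! ### Saturation -/

/-- **the integral lattice is saturated** -/
theorem dll_saturated {p : ℕ} (hp : p ≠ 0) (f : ↥(CuspForm.intLattice M 2))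
    (h : ∀ n : ℕ, (p : ℤ) ∣ dllCoeffZ M (f : CuspForm (Gamma0 M) 2) n) :
    ∃ g : ↥(CuspForm.intLattice M 2), f = (p : ℤ) • g := by
  have hpC : (p : ℂ) ≠ 0 := by exact_mod_cast hp
  set g₀ : CuspForm (Gamma0 M) 2 := ((p : ℂ)⁻¹) • (f : CuspForm (Gamma0 M) 2) with hg₀
  have hg₀L : g₀ ∈ CuspForm.intLattice M 2 := by
    rw [h8_mem_intLattice_iff]
    intro n
    obtain ⟨m, hm⟩ := h n
    refine ⟨m, ?_⟩
    rw [hg₀, h8_qCoeff_smul, dllCoeffZ_spec M f.2, hm, Int.cast_mul, Int.cast_natCast,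
      ← mul_assoc, inv_mul_cancel₀ hpC, one_mul]
  refine ⟨⟨g₀, hg₀L⟩, Subtype.ext ?_⟩
  rw [Submodule.coe_smul]
  show (f : CuspForm (Gamma0 M) 2) = (p : ℤ) • g₀
  rw [hg₀, ← Int.cast_smul_eq_zsmul ℂ, smul_smul, Int.cast_natCast, mul_inv_cancel₀ hpC, one_smul]

/-! ### Independence -/

/-- independence over the prime field -/
theorem dll_indep_zmod {p : ℕ} [Fact p.Prime] {ι : Type*} [Fintype ι]
    (b : Basis ι ℤ ↥(CuspForm.intLattice M 2)) :
    LinearIndependent (ZMod p) (fun i => dllRedZ M (ZMod p) (b i)) := by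
  classical
  have hp : p ≠ 0 := (Fact.out : p.Prime).ne_zero
  rw [Fintype.linearIndependent_iff]
  intro a ha i₀
  -- the integral lift
  set f : ↥(CuspForm.intLattice M 2) := ∑ i, ((a i).val : ℤ) • b i with hf
  have hfred : dllRedZ M (ZMod p) f = 0 := by
    rw [hf, map_sum, ← ha]
    refine Finset.sum_congr rfl (fun i _ => ?_)
    rw [map_zsmul, ← Int.cast_smul_eq_zsmul (ZMod p), Int.cast_natCast, ZMod.natCast_val,
      ZMod.cast_id', id_eq]
  have hdiv : ∀ n : ℕ, (p : ℤ) ∣ dllCoeffZ M (f : CuspForm (Gamma0 M) 2) n := by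
    intro n
    have h1 := congrArg (fun s : LaurentSeries (ZMod p) => s.coeff (n : ℤ)) hfred
    simp only [dllRedZ_coeff_nat, HahnSeries.coeff_zero] at h1
    exact (ZMod.intCast_zmod_eq_zero_iff_dvd _ p).mp h1
  obtain ⟨g, hg⟩ := dll_saturated M hp f hdiv
  have h2 : b.repr f i₀ = (p : ℤ) * b.repr g i₀ := by
    rw [hg, map_smul, Finsupp.smul_apply, smul_eq_mul]
  have h3 : b.repr f i₀ = ((a i₀).val : ℤ) := by
    rw [hf, map_sum, Finset.sum_apply']
    rw [Finset.sum_eq_single i₀]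
    · rw [map_smul, Finsupp.smul_apply, b.repr_self, Finsupp.single_eq_same, smul_eq_mul, mul_one]
    · intro j _ hj
      rw [map_smul, Finsupp.smul_apply, b.repr_self, Finsupp.single_eq_of_ne hj.symm, smul_zero]
    · intro h
      exact absurd (Finset.mem_univ _) h
  rw [h3] at h2
  have h4 : ((((a i₀).val : ℕ) : ℤ) : ZMod p) = 0 := by
    rw [h2, Int.cast_mul, Int.cast_natCast, ZMod.natCast_self, zero_mul]
  rwa [Int.cast_natCast, ZMod.natCast_val, ZMod.cast_id', id_eq] at h4

variable (𝔓 : FFPlace)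

/-- **independence of the reductions of a `ℤ`-basis over the residue field** -/
theorem dll_indep_basis {ι : Type*} [Fintype ι] (b : Basis ι ℤ ↥(CuspForm.intLattice M 2)) :
    LinearIndependent (IsLocalRing.ResidueField ↥𝔓.P)
      (fun i => dleRedForm 𝔓 M ((b i : ↥(CuspForm.intLattice M 2)) : CuspForm (Gamma0 M) 2)) := by
  haveI : Fact 𝔓.p.Prime := ⟨𝔓.hp⟩
  haveI : CharP (IsLocalRing.ResidueField ↥𝔓.P) 𝔓.p := tkr_charP_residue 𝔓.hp 𝔓.hP
  have h1 := Fermat.Agent.ES.linearIndependent_coeffMap_ringHom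
    (ZMod.castHom (dvd_refl 𝔓.p) (IsLocalRing.ResidueField ↥𝔓.P)) _ (dll_indep_zmod M (p := 𝔓.p) b)
  have h2 : (fun i => coeffMap (ZMod.castHom (dvd_refl 𝔓.p) (IsLocalRing.ResidueField ↥𝔓.P))
      (dllRedZ M (ZMod 𝔓.p) (b i))) = fun i => dleRedForm 𝔓 M
        ((b i : ↥(CuspForm.intLattice M 2)) : CuspForm (Gamma0 M) 2) := by
    funext i
    rw [dll_coeffMap_redZ, dllRedZ_eq_dleRedForm]
  rwa [h2] at h1

/-- helper5's form: at least `dim S₂(M)` forms of the lattice with independent reductions -/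
theorem dll_indep : ∃ (n : ℕ) (f : Fin n → ↥(CuspForm.intLattice M 2)),
    Module.finrank ℂ (CuspForm (Gamma0 M) 2) ≤ n ∧
      LinearIndependent (IsLocalRing.ResidueField ↥𝔓.P)
        (fun i => dleRedForm 𝔓 M ((f i : ↥(CuspForm.intLattice M 2)) : CuspForm (Gamma0 M) 2)) := by
  classical
  haveI := CuspForm.intLattice.moduleFinite M
  haveI := CuspForm.intLattice.moduleFree M
  let b := Module.Free.chooseBasis ℤ ↥(CuspForm.intLattice M 2)
  let e := Fintype.equivFin (Module.Free.ChooseBasisIndex ℤ ↥(CuspForm.intLattice M 2))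
  refine ⟨_, fun i => b (e.symm i), ?_, ?_⟩
  · -- the basis spans `S₂(M)` over `ℂ`
    have hspan : Submodule.span ℂ (Set.range fun i => ((b i : ↥(CuspForm.intLattice M 2)) :
        CuspForm (Gamma0 M) 2)) = ⊤ := by
      rw [eq_top_iff, ← (hasIntegralStructure_two M : CuspForm.HasIntegralStructure M 2)]
      apply Submodule.span_le.mpr
      intro f hf
      have h1 : (⟨f, hf⟩ : ↥(CuspForm.intLattice M 2)) ∈
          Submodule.span ℤ (Set.range b) := by rw [b.span_eq]; trivial
      have h2 : f ∈ Submodule.span ℤ (Set.range fun i => ((b i : ↥(CuspForm.intLattice M 2)) :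
          CuspForm (Gamma0 M) 2)) := by
        have h3 := Submodule.apply_mem_span_image_of_mem_span
          (CuspForm.intLattice M 2).subtype h1
        rwa [← Set.range_comp] at h3
      exact Submodule.span_le_restrictScalars ℤ ℂ _ h2
    have h4 := finrank_range_le_card (R := ℂ) (fun i => ((b i : ↥(CuspForm.intLattice M 2)) :
      CuspForm (Gamma0 M) 2))
    unfold Set.finrank at h4
    rw [hspan, finrank_top] at h4
    exact h4
  · exact (dll_indep_basis M 𝔓 b).comp _ e.symm.injective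

end

end Fermat.Agent.Delta
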