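/-
DELTA / I6, package (L) (helper5), file 4: **the dictionary, backwards**.

Every cusp form `g ∈ S₂(Γ₀(M))` whose `q`-coefficients lie in `ι(ℚ̄)` is the form of a regular
differential `h dj` of the function field of `X₀(M)` over `ℚ̄`: `h · θ(j) = Σ aₙ qⁿ` in `ℚ̄((q))`
(`dll_exists_regCoeff`).  (Dimension count `dim S₂ = dim Ω(0)` + linear independence of Laurent
series is preserved by extension of the coefficient field.)
-/
import Mathlib
import Fermat.Agent.Lib.S23.DictFinal

set_option autoImplicit false
set_option linter.unusedSectionVars false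
set_option linter.unusedVariables false
set_option linter.style.haveILetI false

namespace Fermat.Agent.Delta

open ModularCurve AlgebraicCurve ModularFormClass UpperHalfPlane
open Fermat.Agent.S24Lib Fermat.Agent.Curve Fermat.Agent.ES Fermat.Agent.S23Lib
open Fermat.Agent.Lib.Helper8

local notation "Qb" => AlgebraicClosure ℚ
local notation "Γ₀(" N ")" => CongruenceSubgroup.Gamma0 N

variable (M : ℕ) [NeZero M]

/-- `dim S₂(Γ₀(M)) = dim Ω(0)` -/
theorem dll_finrank_regCoeff :
    Module.finrank Qb ↥(regCoeff (isFunctionFieldGen_jBar M)) =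
      Module.finrank ℂ (CuspForm Γ₀(M) 2) := by
  rw [finrank_regCoeff (isFunctionFieldGen_jBar M)]
  have h1 := Fermat.Agent.S20.result M
  have h2 := genusR_eq_genusFormula M
  have : (Module.finrank ℂ (CuspForm Γ₀(M) 2) : ℚ)
      = (genusR Qb (modularFunctionFieldBar M) : ℚ) := by rw [h1, h2]
  exact_mod_cast this.symm

/-- **the dictionary, backwards** -/
theorem dll_exists_regCoeff (g : CuspForm Γ₀(M) 2) (a : ℕ → Qb)
    (ha : ∀ n : ℕ, qCoeff ⇑g n = iotaC (a n)) :
    ∃ h ∈ regCoeff (isFunctionFieldGen_jBar M),
      ((h : modularFunctionFieldBar M) : LaurentSeries Qb) * thetaJ Qb =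
        HahnSeries.ofPowerSeries ℤ Qb (PowerSeries.mk a) := by
  classical
  set hx := isFunctionFieldGen_jBar M with hhx
  set s : LaurentSeries Qb := HahnSeries.ofPowerSeries ℤ Qb (PowerSeries.mk a) with hs
  set r := Module.finrank Qb ↥(regCoeff hx) with hr
  have : Module.Free Qb ↥(regCoeff hx) := Module.Free.of_divisionRing Qb _
  let b : Module.Basis (Fin r) Qb ↥(regCoeff hx) := Module.finBasis Qb _
  let m : ↥(regCoeff hx) →ₗ[Qb] LaurentSeries Qb :=
    { toFun := fun h => ((h : modularFunctionFieldBar M) : LaurentSeries Qb) * thetaJ Qb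
      map_add' := fun h h' => by
        simp only [Submodule.coe_add, IntermediateField.coe_add, add_mul]
      map_smul' := fun c h => by
        simp only [Submodule.coe_smul, IntermediateField.coe_smul, smul_mul_assoc,
          RingHom.id_apply]
        ext n
        rw [Algebra.smul_def, algebraMap_laurentSeries_eq_single]
        simp }
  have hm : ∀ h, m h = ((h : modularFunctionFieldBar M) : LaurentSeries Qb) * thetaJ Qb :=
    fun _ => rfl
  by_cases hmem : s ∈ LinearMap.range m
  · obtain ⟨h, hh⟩ := hmem
    exact ⟨h, h.2, by rw [← hm, hh]⟩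
  exfalso
  have hminj : Function.Injective m := by
    intro h h' hh
    rw [hm, hm] at hh
    have := mul_right_cancel₀ (thetaJ_ne_zero Qb) hh
    exact Subtype.ext (Subtype.ext this)
  have hli_s : LinearIndependent Qb (fun i => m (b i)) :=
    b.linearIndependent.map' m (LinearMap.ker_eq_bot.mpr hminj)
  have hspan : Submodule.span Qb (Set.range fun i => m (b i)) = LinearMap.range m := by
    have h1 : (Set.range fun i => m (b i)) = m '' Set.range b := by
      rw [← Set.range_comp]; rfl
    rw [h1, ← Submodule.map_span, b.span_eq, Submodule.map_top]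
  -- the extended family of series
  let S : Fin (r + 1) → LaurentSeries Qb := Fin.cons s (fun i => m (b i))
  have hli_S : LinearIndependent Qb S := by
    rw [linearIndependent_finCons]
    exact ⟨hli_s, by rw [hspan]; exact hmem⟩
  have hli_c : LinearIndependent ℂ (fun i => coeffMap iotaC (S i)) :=
    linearIndependent_coeffMap_ringHom iotaC _ hli_S
  -- the extended family of forms
  have hf : ∀ i, ∃ f : CuspForm Γ₀(M) 2, ∀ n : ℕ,
      qCoeff ⇑f n = iotaC ((m (b i)).coeff (n : ℤ)) :=
    fun i => exists_cuspForm_qCoeff M hx (b i).2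
  choose f hf using hf
  let G : Fin (r + 1) → CuspForm Γ₀(M) 2 := Fin.cons g f
  have hGS : ∀ i, ∀ n : ℕ, qCoeff ⇑(G i) n = iotaC ((S i).coeff (n : ℤ)) := by
    intro i n
    refine Fin.cases ?_ (fun j => ?_) i
    · show qCoeff ⇑g n = iotaC (s.coeff (n : ℤ))
      rw [ha n, hs, HahnSeries.ofPowerSeries_apply_coeff, PowerSeries.coeff_mk]
    · exact hf j n
  have hSneg : ∀ i, ∀ n : ℤ, n < 0 → (S i).coeff n = 0 := by
    intro i n hn
    refine Fin.cases ?_ (fun j => ?_) i
    · show s.coeff n = 0
      rw [hs]
      exact ModularCurve.ofPowerSeries_coeff_of_neg _ hn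
    · exact coeff_mul_thetaJ_of_neg M hx (b j).2 hn
  have hli_G : LinearIndependent ℂ G := by
    rw [linearIndependent_iff']
    intro t c hc
    refine linearIndependent_iff'.mp hli_c t c ?_
    ext n
    simp only [HahnSeries.coeff_sum, HahnSeries.coeff_smul, coeffMap_coeff, smul_eq_mul,
      HahnSeries.coeff_zero]
    rcases lt_or_ge n 0 with hn | hn
    · refine Finset.sum_eq_zero fun i _ => ?_
      rw [hSneg i n hn, map_zero, mul_zero]
    · obtain ⟨k, rfl⟩ := Int.eq_ofNat_of_zero_le hn
      have h1 := congrArg (qCoeffLin M k) hc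
      rw [map_sum, map_zero] at h1
      rw [← h1]
      refine Finset.sum_congr rfl fun i _ => ?_
      rw [map_smul, qCoeffLin_apply, hGS i k, smul_eq_mul]
  have h1 := hli_G.fintype_card_le_finrank
  rw [Fintype.card_fin, ← dll_finrank_regCoeff M] at h1
  omega

end Fermat.Agent.Delta
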