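/-
DELTA / I6, package (L) (helper5), file 2: **regularity of a differential from two integrality
statements** (any characteristic).

`F / K` a function field with separating generator `x`, `K` algebraically closed, `c ≠ 0` in `K`,
`n ≥ 1`.  If `hⁿ (x (x - c))ⁿ⁻¹` is integral over `K[x]` and `hⁿ (x - c)ⁿ x` is integral over
`K[x⁻¹]`, then `h dx` is a regular differential (`dll_regular_of_integral`).  The proof only uses
`ord_v(dx) ≥ ord_v(x - a) - 1`, valid in every characteristic.
-/
import Mathlib
import Fermat.Agent.Lib.CurveP.Hurwitz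
import Fermat.Agent.Lib.CurveP.RiemannRoch
import Fermat.Agent.Lib.T1.GoodRed.PoleIntP

set_option autoImplicit false
set_option linter.unusedSectionVars false
set_option linter.unusedVariables false
set_option linter.style.haveILetI false

namespace Fermat.Agent.Delta

open AlgebraicCurve KaehlerDifferential IntermediateField Fermat.Agent.Curve
  Fermat.Agent.Curve.PlaceAux Fermat.Agent.T1

variable {K F : Type*} [Field K] [Field F] [Algebra K F]

/-- at a zero of `x - a`, `x - b` is a unit for `b ≠ a` -/
theorem dll_ord_sub_of_zero (v : Place K F) {x : F} {a b : K}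
    (ha : 0 < v.ord (x - algebraMap K F a)) (hab : a ≠ b) :
    v.ord (x - algebraMap K F b) = 0 := by
  have h1 : x - algebraMap K F b = algebraMap K F (a - b) + (x - algebraMap K F a) := by
    rw [map_sub]; ring
  have h2 : v.ord (algebraMap K F (a - b)) = 0 := ord_algebraMap v _
  have h3 : algebraMap K F (a - b) ≠ 0 := by
    rw [Ne, map_eq_zero]
    exact sub_ne_zero.mpr hab
  rw [h1, ord_add_of_lt v h3 (by rw [h2]; exact ha), h2]

/-- at a pole of `x`, `ord (x - b) = ord x` -/
theorem dll_ord_sub_of_pole (v : Place K F) {x : F} (b : K) (hx : v.ord x < 0) :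
    v.ord (x - algebraMap K F b) = v.ord x := by
  have hx0 : x ≠ 0 := by
    rintro rfl
    rw [v.ord_zero] at hx
    exact lt_irrefl _ hx
  rw [sub_eq_add_neg]
  refine ord_add_of_lt v hx0 ?_
  have hneg : v.ord (-(algebraMap K F b)) = v.ord (algebraMap K F b) := by
    simp only [Place.ord, Valuation.map_neg]
  rw [hneg, ord_algebraMap]
  exact hx

theorem dll_ord_pow (v : Place K F) (f : F) (n : ℕ) : v.ord (f ^ n) = n * v.ord f := by
  rw [← zpow_natCast, v.ord_zpow]

variable [IsAlgClosed K]

/-- `ord_v(dx) ≥ -ord_v(x⁻¹) - 1` at a pole of `x` -/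
theorem dll_le_ordDifferential_pole {x : F} (hx : IsFunctionFieldGen K F x)
    [Algebra.IsSeparable K⟮x⟯ F] (v : Place K F) (h : v.ord x < 0) :
    v.ord x - 1 ≤ v.ordDifferential (D K F x) := by
  haveI := CurveP.dCoordGenerates hx v
  haveI := CurveP.nontrivial_kaehler_of_place hx v
  have hx0 : x ≠ 0 := by
    rintro rfl
    rw [v.ord_zero] at h
    exact lt_irrefl _ h
  have hDx : D K F x ≠ 0 := CurveP.D_gen_ne_zero hx v
  have hDxi : D K F x⁻¹ ≠ 0 := by
    intro h0
    apply hDx
    rw [CurveP.D_inv_eq, h0, smul_zero]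
  have hci : v.differentialCoeff (D K F x⁻¹) ≠ 0 := CurveP.differentialCoeff_ne_zero hx v hDxi
  have hpos : 0 ≤ v.ord (x⁻¹ - algebraMap K F 0) := by
    rw [map_zero, sub_zero, v.ord_inv]; omega
  have hne : x⁻¹ - algebraMap K F 0 ≠ 0 := by
    rw [map_zero, sub_zero]; exact inv_ne_zero hx0
  have hc : -(x ^ 2) ≠ 0 := neg_ne_zero.mpr (pow_ne_zero 2 hx0)
  rcases CurveP.le_ord_differentialCoeff_D hx v x⁻¹ 0 hpos hne with h0 | ⟨h1, -⟩
  · exact absurd h0 hci
  · rw [map_zero, sub_zero, v.ord_inv] at h1
    rw [CurveP.D_inv_eq x, v.ordDifferential_smul hc hci, Place.ordDifferential, CurveP.ord_neg',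
      dll_ord_pow]
    push_cast
    omega

/-- **regularity from integrality** -/
theorem dll_regular_of_integral {x : F} (hx : IsFunctionFieldGen K F x)
    [Algebra.IsSeparable K⟮x⟯ F] {n : ℕ} (hn : 0 < n) {c : K} (hc : c ≠ 0) (h : F)
    (h1 : IsIntegral ↥(Algebra.adjoin K {x})
      (h ^ n * (x * (x - algebraMap K F c)) ^ (n - 1)))
    (h2 : IsIntegral ↥(Algebra.adjoin K {x⁻¹}) (h ^ n * (x - algebraMap K F c) ^ n * x))
    (v : Place K F) : 0 ≤ v.ordDifferential (h • D K F x) := by
  rcases eq_or_ne h 0 with rfl | hh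
  · rw [zero_smul, CurveP.ordDifferential_zero hx]
  have hx0 : x ≠ 0 := fun h0 => hx.transcendental (h0 ▸ isAlgebraic_zero)
  have hxc : x - algebraMap K F c ≠ 0 := by
    intro h0
    apply hx.not_mem_range
    exact ⟨c, (sub_eq_zero.mp h0).symm⟩
  have hDx : D K F x ≠ 0 := CurveP.D_gen_ne_zero hx v
  rw [CurveP.ordDifferential_smul' hx v hh hDx]
  have hnZ : (1 : ℤ) ≤ (n : ℤ) := by exact_mod_cast hn
  rcases CurveP.pole_or_zero hx v with hpole | ⟨a, ha⟩
  · -- a pole of `x`
    have hxi : 0 ≤ v.ord x⁻¹ := by rw [v.ord_inv]; omega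
    have h3 := ta_ord_nonneg_of_isIntegral h2 v hxi
    rw [v.ord_mul (mul_ne_zero (pow_ne_zero n hh) (pow_ne_zero n hxc)) hx0,
      v.ord_mul (pow_ne_zero n hh) (pow_ne_zero n hxc), dll_ord_pow, dll_ord_pow,
      dll_ord_sub_of_pole v c hpole] at h3
    have h4 := dll_le_ordDifferential_pole hx v hpole
    -- `n (ord h + ord x) ≥ - ord x ≥ 1`
    have h5 : 0 < (n : ℤ) * (v.ord h + v.ord x) := by nlinarith
    have h6 : 0 < v.ord h + v.ord x := by
      by_contra hcon
      push Not at hcon
      have : (n : ℤ) * (v.ord h + v.ord x) ≤ 0 :=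
        mul_nonpos_of_nonneg_of_nonpos (by omega) hcon
      omega
    omega
  · -- a zero of `x - a`
    have hxa : x - algebraMap K F a ≠ 0 := by
      intro h0
      rw [h0, v.ord_zero] at ha
      exact lt_irrefl _ ha
    have hnp := CurveP.not_pole_of_zero v ha
    have h3 := ta_ord_nonneg_of_isIntegral h1 v (not_lt.mp hnp)
    rw [v.ord_mul (pow_ne_zero n hh) (pow_ne_zero _ (mul_ne_zero hx0 hxc)), dll_ord_pow,
      dll_ord_pow, v.ord_mul hx0 hxc] at h3
    have h4 : v.ord (x - algebraMap K F a) - 1 ≤ v.ordDifferential (D K F x) := by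
      rcases CurveP.le_ord_differentialCoeff_D hx v x a ha.le hxa with h0 | ⟨h5, -⟩
      · exact absurd h0 (CurveP.differentialCoeff_ne_zero hx v hDx)
      · exact h5
    have hn1 : ((n - 1 : ℕ) : ℤ) = (n : ℤ) - 1 := by
      rw [Nat.cast_sub hn]; rfl
    rw [hn1] at h3
    -- the order of `x (x - c)` at `v`
    have hP : v.ord x + v.ord (x - algebraMap K F c) ≤ v.ord (x - algebraMap K F a) := by
      by_cases ha0 : a = 0
      · subst ha0
        rw [map_zero, sub_zero] at ha ⊢
        have : v.ord (x - algebraMap K F c) = 0 := by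
          have ha' : 0 < v.ord (x - algebraMap K F 0) := by rwa [map_zero, sub_zero]
          exact dll_ord_sub_of_zero v ha' (Ne.symm hc)
        omega
      · have h0 : v.ord x = 0 := by
          have := dll_ord_sub_of_zero v ha (b := 0) ha0
          rwa [map_zero, sub_zero] at this
        by_cases hac : a = c
        · subst hac
          omega
        · have := dll_ord_sub_of_zero v ha hac
          omega
    -- `n (ord h + e) ≥ e ≥ 1`
    set e := v.ord (x - algebraMap K F a) with he
    set P := v.ord x + v.ord (x - algebraMap K F c) with hPdef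
    have hP0 : 0 ≤ P := by
      have h7 : 0 ≤ v.ord x := not_lt.mp hnp
      have h8 : 0 ≤ v.ord (x - algebraMap K F c) := by
        by_contra hcon
        push Not at hcon
        have : v.ord x < 0 := by
          by_contra hcon2
          have hm : x ∈ v.toValuationSubring := mem_of_ord_nonneg v (not_lt.mp hcon2)
          have hm2 := v.toValuationSubring.sub_mem hm (algebraMap_mem v c)
          have := ord_nonneg_of_mem v hm2
          omega
        exact hnp this
      omega
    have h5 : 0 < (n : ℤ) * (v.ord h + e) := by nlinarith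
    have h6 : 0 < v.ord h + e := by
      by_contra hcon
      push Not at hcon
      have : (n : ℤ) * (v.ord h + e) ≤ 0 :=
        mul_nonpos_of_nonneg_of_nonpos (by omega) hcon
      omega
    omega

/-- the space of regular differentials is finite-dimensional -/
theorem dll_finiteDimensional_regular {x : F} (hx : IsFunctionFieldGen K F x)
    [Algebra.IsSeparable K⟮x⟯ F] : FiniteDimensional K ↥(CurveP.regularDifferentials hx) := by
  obtain ⟨v0⟩ := CurveP.exists_place hx
  set ω0 : Ω[F⁄K] := D K F x with hω0
  have hω0ne : ω0 ≠ 0 := CurveP.D_gen_ne_zero hx v0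
  have hmem : ∀ f : F, f ∈ riemannRochSpace (CurveP.divDiff hx ω0) ↔
      f • ω0 ∈ CurveP.regularDifferentials hx := by
    intro f
    rw [mem_riemannRochSpace_iff, CurveP.mem_regularDifferentials]
    refine forall_congr' fun v => ?_
    by_cases hf : f = 0
    · rw [hf, zero_smul, CurveP.ordDifferential_zero hx]
      simp
    · rw [CurveP.ordDifferential_smul' hx v hf hω0ne, CurveP.divDiff_apply hx hω0ne]
      constructor
      · rintro (h | h)
        · exact absurd h hf
        · omega
      · intro h; right; omega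
  let φ : ↥(riemannRochSpace (CurveP.divDiff hx ω0)) →ₗ[K] ↥(CurveP.regularDifferentials hx) :=
    { toFun := fun f => ⟨(f : F) • ω0, (hmem f).mp f.2⟩
      map_add' := fun f g => by
        apply Subtype.ext
        show ((f : F) + (g : F)) • ω0 = (f : F) • ω0 + (g : F) • ω0
        rw [add_smul]
      map_smul' := fun c f => by
        apply Subtype.ext
        show (c • (f : F)) • ω0 = c • ((f : F) • ω0)
        rw [smul_assoc] }
  have hsurj : Function.Surjective φ := by
    intro ω
    obtain ⟨h, hh⟩ := CurveP.exists_eq_smul_D hx (ω : Ω[F⁄K])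
    refine ⟨⟨h, (hmem h).mpr (by rw [← hh]; exact ω.2)⟩, ?_⟩
    apply Subtype.ext
    exact hh.symm
  haveI := CurveP.finiteDimensional_riemannRochSpace hx (CurveP.divDiff hx ω0)
  exact Module.Finite.of_surjective φ hsurj

end Fermat.Agent.Delta
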