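/-
DELTA / I6, package (L) (helper5), file 3: **integrality from regularity in characteristic zero**.

`F / K` a function field, `K` algebraically closed of characteristic zero, `x` a generator,
`n = [F : K(x)]`, `c ≠ 0`, `x` unramified outside `{0, c, ∞}`.  If `h dx` is a regular differential
then `hⁿ (x (x - c))ⁿ⁻¹` is integral over `K[x]` and `hⁿ (x - c)ⁿ x` is integral over `K[x⁻¹]`
(`dll_integral_of_regular`): the converse of `dll_regular_of_integral`, where the exponent `n`
bounds all ramification indices.
-/
import Mathlib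
import Fermat.Agent.Lib.Delta.Lift.Local

set_option autoImplicit false
set_option linter.unusedSectionVars false
set_option linter.unusedVariables false
set_option linter.style.haveILetI false

namespace Fermat.Agent.Delta

open AlgebraicCurve KaehlerDifferential IntermediateField Fermat.Agent.Curve
  Fermat.Agent.Curve.PlaceAux Fermat.Agent.T1

variable {K F : Type*} [Field K] [Field F] [Algebra K F] [IsAlgClosed K]

/-- the order of a zero of `x - a` is at most the degree -/
theorem dll_ord_zero_le {x : F} (hx : IsFunctionFieldGen K F x) [Algebra.IsSeparable K⟮x⟯ F]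
    (a : K) (v : Place K F) (hv : 0 < v.ord (x - algebraMap K F a)) :
    v.ord (x - algebraMap K F a) ≤ Module.finrank K⟮x⟯ F := by
  have hfin := CurveP.finite_zeros hx a
  have hsum := CurveP.sum_ord_zeros hx a
  rw [finsum_mem_eq_finite_toFinset_sum _ hfin] at hsum
  rw [← hsum]
  have hmem : v ∈ hfin.toFinset := by
    rw [Set.Finite.mem_toFinset]; exact hv
  exact Finset.single_le_sum (f := fun w : Place K F => w.ord (x - algebraMap K F a))
    (fun w hw => by
      have : 0 < w.ord (x - algebraMap K F a) := by
        rw [Set.Finite.mem_toFinset] at hw; exact hw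
      exact this.le) hmem

/-- the order of a pole of `x` is at most the degree -/
theorem dll_ord_pole_le {x : F} (hx : IsFunctionFieldGen K F x) [Algebra.IsSeparable K⟮x⟯ F]
    (v : Place K F) (hv : v.ord x < 0) : - v.ord x ≤ Module.finrank K⟮x⟯ F := by
  have hfin := CurveP.finite_poles hx
  have hsum := CurveP.sum_ord_poles hx
  rw [finsum_mem_eq_finite_toFinset_sum _ hfin] at hsum
  rw [← hsum]
  have hmem : v ∈ hfin.toFinset := by
    rw [Set.Finite.mem_toFinset]; exact hv
  exact Finset.single_le_sum (f := fun w : Place K F => - w.ord x)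
    (fun w hw => by
      have : w.ord x < 0 := by
        rw [Set.Finite.mem_toFinset] at hw; exact hw
      show 0 ≤ - w.ord x
      omega) hmem

variable [CharZero K]

/-- **integrality from regularity**, characteristic zero, `x` unramified outside `{0, c, ∞}` -/
theorem dll_integral_of_regular {x : F} (hx : IsFunctionFieldGen K F x)
    [Algebra.IsSeparable K⟮x⟯ F] {c : K} (hc : c ≠ 0)
    (hunr : ∀ a : K, a ≠ 0 → a ≠ c → ∀ v : Place K F, 0 < v.ord (x - algebraMap K F a) →
      v.ord (x - algebraMap K F a) = 1)
    (h : F) (hreg : ∀ v : Place K F, 0 ≤ v.ordDifferential (h • D K F x)) :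
    IsIntegral ↥(Algebra.adjoin K {x})
        (h ^ Module.finrank K⟮x⟯ F * (x * (x - algebraMap K F c)) ^ (Module.finrank K⟮x⟯ F - 1)) ∧
      IsIntegral ↥(Algebra.adjoin K {x⁻¹})
        (h ^ Module.finrank K⟮x⟯ F * (x - algebraMap K F c) ^ Module.finrank K⟮x⟯ F * x) := by
  set n := Module.finrank K⟮x⟯ F with hn
  have hnpos : 0 < n := by
    haveI := hx.finite
    exact Module.finrank_pos
  have hnZ : (1 : ℤ) ≤ (n : ℤ) := by exact_mod_cast hnpos
  have hn1 : ((n - 1 : ℕ) : ℤ) = (n : ℤ) - 1 := by
    rw [Nat.cast_sub hnpos]; rfl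
  rcases eq_or_ne h 0 with rfl | hh
  · rw [zero_pow hnpos.ne', zero_mul, zero_mul, zero_mul]
    exact ⟨isIntegral_zero, isIntegral_zero⟩
  have hx0 : x ≠ 0 := fun h0 => hx.transcendental (h0 ▸ isAlgebraic_zero)
  have hxc : x - algebraMap K F c ≠ 0 := by
    intro h0
    apply hx.not_mem_range
    exact ⟨c, (sub_eq_zero.mp h0).symm⟩
  haveI hsepinv := CurveP.isSeparable_adjoin_inv (K := K) x
  have hxinv := CurveP.isFunctionFieldGen_inv hx
  -- the order of `h` at a zero of `x - a`
  have hzero : ∀ (v : Place K F) (a : K), 0 < v.ord (x - algebraMap K F a) →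
      1 - v.ord (x - algebraMap K F a) ≤ v.ord h := by
    intro v a ha
    have hDx : D K F x ≠ 0 := CurveP.D_gen_ne_zero hx v
    have hchar : (((v.ord (x - algebraMap K F a)).toNat : ℕ) : K) ≠ 0 := by
      rw [Nat.cast_ne_zero]; omega
    have h1 := CurveP.ordDifferential_D_of_pos hx v x a ha hchar
    have h2 := hreg v
    rw [CurveP.ordDifferential_smul' hx v hh hDx, h1] at h2
    omega
  -- the order of `h` at a pole of `x`
  have hpole : ∀ v : Place K F, v.ord x < 0 → 1 - v.ord x ≤ v.ord h := by
    intro v hv
    have hDx : D K F x ≠ 0 := CurveP.D_gen_ne_zero hx v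
    have hchar : ((((-v.ord x).toNat : ℕ)) : K) ≠ 0 := by
      rw [Nat.cast_ne_zero]; omega
    have h1 := CurveP.ordDifferential_D_of_neg hx v x hv hchar
    have h2 := hreg v
    rw [CurveP.ordDifferential_smul' hx v hh hDx, h1] at h2
    omega
  constructor
  · refine ta_isIntegral_of_regular hx _ (fun v hv => ?_)
    rw [v.ord_mul (pow_ne_zero n hh) (pow_ne_zero _ (mul_ne_zero hx0 hxc)), dll_ord_pow,
      dll_ord_pow, v.ord_mul hx0 hxc, hn1]
    rcases CurveP.pole_or_zero hx v with hp | ⟨a, ha⟩
    · omega
    have h1 := hzero v a ha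
    have hle := dll_ord_zero_le hx a v ha
    rw [← hn] at hle
    set e := v.ord (x - algebraMap K F a) with he
    by_cases ha0 : a = 0
    · subst ha0
      have hxe : v.ord x = e := by rw [he, map_zero, sub_zero]
      have hc0 : v.ord (x - algebraMap K F c) = 0 := dll_ord_sub_of_zero v ha (Ne.symm hc)
      rw [hxe, hc0, add_zero]
      nlinarith
    · have hx0' : v.ord x = 0 := by
        have := dll_ord_sub_of_zero v ha (b := 0) ha0
        rwa [map_zero, sub_zero] at this
      by_cases hac : a = c
      · subst hac
        rw [hx0', zero_add]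
        nlinarith
      · have hc0 : v.ord (x - algebraMap K F c) = 0 := dll_ord_sub_of_zero v ha hac
        have he1 : e = 1 := hunr a ha0 hac v ha
        rw [hx0', hc0, add_zero, mul_zero, add_zero]
        have : 0 ≤ v.ord h := by omega
        positivity
  · refine ta_isIntegral_of_regular hxinv _ (fun v hv => ?_)
    rw [v.ord_inv] at hv
    rw [v.ord_mul (mul_ne_zero (pow_ne_zero n hh) (pow_ne_zero n hxc)) hx0,
      v.ord_mul (pow_ne_zero n hh) (pow_ne_zero n hxc), dll_ord_pow, dll_ord_pow]
    rcases CurveP.pole_or_zero hx v with hp | ⟨a, ha⟩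
    · have h1 := hpole v hp
      have hle := dll_ord_pole_le hx v hp
      rw [← hn] at hle
      rw [dll_ord_sub_of_pole v c hp]
      nlinarith
    · have h1 := hzero v a ha
      set e := v.ord (x - algebraMap K F a) with he
      have ha0 : a ≠ 0 := by
        rintro rfl
        rw [he, map_zero, sub_zero] at ha
        omega
      have hx0' : v.ord x = 0 := by
        have := dll_ord_sub_of_zero v ha (b := 0) ha0
        rwa [map_zero, sub_zero] at this
      by_cases hac : a = c
      · subst hac
        rw [hx0', add_zero, ← he]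
        nlinarith
      · have hc0 : v.ord (x - algebraMap K F c) = 0 := dll_ord_sub_of_zero v ha hac
        have he1 : e = 1 := hunr a ha0 hac v ha
        rw [hx0', hc0, add_zero, mul_zero, add_zero]
        have : 0 ≤ v.ord h := by omega
        positivity

end Fermat.Agent.Delta
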