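/-
DELTA / I6, package (L) (helper5), file 5: **(LIFT-incl)** — the reduction of an integral cusp form
is the `q`-expansion of a regular differential of the reduced curve.

For `g ∈ intLattice M 2`, `p ∤ M`, `p ≥ 5`: `g` is the form of a regular differential `h dj`
(`dll_exists_regCoeff`); `h θ(j)` is integral and `θ(j)` is a Gauss unit, so `h` is Gauss-integral
with `h̄ θ(j̄) = ḡ` (`dll_gauss`); `hⁿ (j (j - 1728))ⁿ⁻¹` and `hⁿ (j - 1728)ⁿ j` are integral over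
`ℚ̄[j]`, `ℚ̄[j⁻¹]` (`dll_integral_of_regular`; `j` is unramified outside `0, 1728, ∞` by S24), their
reductions are integral over `k[j̄]`, `k[j̄⁻¹]` (`tbq_int1`, `tbq_int2`), hence `h̄ dj̄` is regular
(`dll_regular_of_integral`).
-/
import Mathlib
import Fermat.Agent.Lib.Delta.Lift.Defs
import Fermat.Agent.Lib.Delta.Lift.Dict
import Fermat.Agent.Lib.Delta.Lift.Tame
import Fermat.Agent.Lib.T1.Inst.UpperQ
import Fermat.Agent.Lib.T3.Red.Modular

set_option autoImplicit false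
set_option linter.unusedSectionVars false
set_option linter.unusedVariables false
set_option linter.style.haveILetI false
set_option synthInstance.maxHeartbeats 400000

namespace Fermat.Agent.Delta

open ModularCurve HahnSeries Fermat.Agent.T1 Fermat.Agent.S23Lib Fermat.Agent.Igusa
  Fermat.Agent.TW KaehlerDifferential ModularFormClass CongruenceSubgroup AlgebraicCurve
  IntermediateField Fermat.Agent.S24Lib Fermat.Agent.T3 Fermat.Agent.Curve

local notation "Qb" => AlgebraicClosure ℚ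

noncomputable section

variable (𝔓 : FFPlace) (M : ℕ) [NeZero M]

/-! ### Gauss integrality -/

/-- **(B2)**: if `h θ(j)` has integer coefficients then `h` is Gauss-integral and
`h̄ θ(j̄)` is the reduced series -/
theorem dll_gauss (hM : ¬ 𝔓.p ∣ M) (h : ↥(modularFunctionFieldBar M)) (a : ℕ → ℤ)
    (hh : (h : LaurentSeries Qb) * thetaJ Qb =
      HahnSeries.ofPowerSeries ℤ Qb (PowerSeries.mk fun n => ((a n : ℤ) : Qb))) :
    ∃ hmem : h ∈ tbOvQ 𝔓 M,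
      ((tbResQ (t3aOK 𝔓 M hM) ⟨h, hmem⟩ : ↥(tbBarF 𝔓 M)) :
          LaurentSeries (IsLocalRing.ResidueField ↥𝔓.P)) *
        thetaJ (IsLocalRing.ResidueField ↥𝔓.P) =
      HahnSeries.ofPowerSeries ℤ (IsLocalRing.ResidueField ↥𝔓.P)
        (PowerSeries.mk fun n => ((a n : ℤ) : IsLocalRing.ResidueField ↥𝔓.P)) := by
  set A : LaurentSeries ↥𝔓.P :=
    HahnSeries.ofPowerSeries ℤ ↥𝔓.P (PowerSeries.mk fun n => ((a n : ℤ) : ↥𝔓.P)) with hA
  set B : LaurentSeries ↥𝔓.P := thetaJ ↥𝔓.P with hB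
  have hBres : coeffMap (IsLocalRing.residue ↥𝔓.P) B =
      thetaJ (IsLocalRing.ResidueField ↥𝔓.P) := coeffMap_thetaJ _
  have hb : coeffMap (IsLocalRing.residue ↥𝔓.P) B ≠ 0 := by
    rw [hBres]; exact thetaJ_ne_zero _
  have hAsub : coeffMap 𝔓.P.subtype A =
      HahnSeries.ofPowerSeries ℤ Qb (PowerSeries.mk fun n => ((a n : ℤ) : Qb)) := by
    rw [hA, ModularCurve.coeffMap_ofPowerSeries]
    congr 1
  have hAres : coeffMap (IsLocalRing.residue ↥𝔓.P) A =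
      HahnSeries.ofPowerSeries ℤ (IsLocalRing.ResidueField ↥𝔓.P)
        (PowerSeries.mk fun n => ((a n : ℤ) : IsLocalRing.ResidueField ↥𝔓.P)) := by
    rw [hA, ModularCurve.coeffMap_ofPowerSeries]
    congr 1
  have hf : (h : LaurentSeries Qb) * coeffMap 𝔓.P.subtype B = coeffMap 𝔓.P.subtype A := by
    rw [hAsub, hB, coeffMap_thetaJ]
    exact hh
  refine ⟨tbq_mem_of_frac hb hf, ?_⟩
  rw [tbResQ_of_frac (t3aOK 𝔓 M hM) hb hf, hBres, hAres, div_mul_cancel₀ _ (thetaJ_ne_zero _)]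

/-! ### Ramification of `j` in characteristic zero -/

/-- `j` is unramified outside `0, 1728, ∞` on `X₀(M)` over `ℚ̄` -/
theorem dll_unramified (a : Qb) (h0 : a ≠ 0) (h1 : a ≠ 1728)
    (v : Place Qb ↥(modularFunctionFieldBar M))
    (hv : 0 < v.ord (tbJ M - algebraMap Qb ↥(modularFunctionFieldBar M) a)) :
    v.ord (tbJ M - algebraMap Qb ↥(modularFunctionFieldBar M) a) = 1 := by
  have hx : IsFunctionFieldGen Qb ↥(modularFunctionFieldBar M) (tbJ M) :=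
    isFunctionFieldGen_jBar M
  haveI : Algebra.IsSeparable ↥(Qb⟮tbJ M⟯) ↥(modularFunctionFieldBar M) := by
    haveI := hx.finite
    haveI : CharZero ↥(Qb⟮tbJ M⟯) :=
      charZero_of_injective_algebraMap (algebraMap Qb ↥(Qb⟮tbJ M⟯)).injective
    infer_instance
  refine CurveP.ord_eq_one_of_ncard_eq hx a ?_ v hv
  have h2 := ncard_zeros_jBar_sub M a h0 h1
  have h3 := finrank_jBar M
  exact h2.trans h3.symm

/-! ### The main inclusion -/

set_option maxHeartbeats 1600000 in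
/-- **(LIFT-incl)**: the reduction of an integral cusp form is the `q`-expansion of a regular
differential of the reduced curve -/
theorem dll_red_mem (hp5 : 5 ≤ 𝔓.p) (hM : ¬ 𝔓.p ∣ M)
    (g : CuspForm (Gamma0 M) 2) (hg : g ∈ CuspForm.intLattice M 2) :
    ∃ ω : Ω[↥(tbBarF 𝔓 M)⁄(IsLocalRing.ResidueField ↥𝔓.P)],
      (∀ v : Place (IsLocalRing.ResidueField ↥𝔓.P) ↥(tbBarF 𝔓 M), 0 ≤ v.ordDifferential ω) ∧
      dllPsi 𝔓 M ω = dleRedForm 𝔓 M g := by
  haveI : IsAlgClosed (IsLocalRing.ResidueField ↥𝔓.P) := tb_isAlgClosed_residueField 𝔓.P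
  haveI : CharP (IsLocalRing.ResidueField ↥𝔓.P) 𝔓.p := tkr_charP_residue 𝔓.hp 𝔓.hP
  have hOK := t3aOK 𝔓 M hM
  have hx : IsFunctionFieldGen Qb ↥(modularFunctionFieldBar M) (tbJ M) :=
    isFunctionFieldGen_jBar M
  haveI : Algebra.IsSeparable ↥(Qb⟮tbJ M⟯) ↥(modularFunctionFieldBar M) := by
    haveI := hx.finite
    haveI : CharZero ↥(Qb⟮tbJ M⟯) :=
      charZero_of_injective_algebraMap (algebraMap Qb ↥(Qb⟮tbJ M⟯)).injective
    infer_instance
  have hxb := tbq_bar_isFunctionFieldGen 𝔓 M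
  haveI := tbq_bar_isSeparable (𝔓 := 𝔓) (N := M) hM
  -- (B1): the regular differential `h dj`
  obtain ⟨h, hreg, hser⟩ := dll_exists_regCoeff M g (fun n => ((dllCoeffZ M g n : ℤ) : Qb))
    (fun n => by rw [dllCoeffZ_spec M hg n, map_intCast])
  -- (B2): `h` is Gauss-integral
  obtain ⟨hmem, hres⟩ := dll_gauss 𝔓 M hM h (dllCoeffZ M g) hser
  set hb : ↥(tbBarF 𝔓 M) := tbResQ hOK ⟨h, hmem⟩ with hhb
  refine ⟨hb • D (IsLocalRing.ResidueField ↥𝔓.P) ↥(tbBarF 𝔓 M) (tbBarJ 𝔓 M), ?_, ?_⟩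
  swap
  · rw [dllPsi_smul_D, dleRedForm]
    exact hres
  -- (B3): regularity
  have hregv : ∀ v : Place Qb ↥(modularFunctionFieldBar M),
      0 ≤ v.ordDifferential (h • D Qb ↥(modularFunctionFieldBar M) (tbJ M)) := hreg
  have h1728 : (1728 : Qb) ≠ 0 := by norm_num
  obtain ⟨hint1, hint2⟩ := dll_integral_of_regular hx h1728
    (fun a h0 h1 v hv => dll_unramified M a h0 h1 v hv) h hregv
  set n := Module.finrank ↥(Qb⟮tbJ M⟯) ↥(modularFunctionFieldBar M) with hn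
  have hnpos : 0 < n := by
    haveI := hx.finite
    exact Module.finrank_pos
  -- elements of the Gauss ring
  have hcP : (1728 : Qb) ∈ 𝔓.P := by
    have : ((1728 : ℕ) : Qb) ∈ 𝔓.P := natCast_mem 𝔓.P 1728
    exact_mod_cast this
  let hO : ↥(tbOvQ 𝔓 M) := ⟨h, hmem⟩
  let jO : ↥(tbOvQ 𝔓 M) := ⟨tbJ M, tbJ_mem_tbOvQ⟩
  let cO : ↥(tbOvQ 𝔓 M) := ⟨algebraMap Qb ↥(modularFunctionFieldBar M) ((⟨1728, hcP⟩ : ↥𝔓.P) : Qb),
    (tbBaseQ hOK).algebraMap_mem ⟨1728, hcP⟩⟩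
  have hresj : tbResQ hOK jO = tbBarJ 𝔓 M := tbResQ_tbJ hOK
  have hresc : tbResQ hOK cO = algebraMap (IsLocalRing.ResidueField ↥𝔓.P) ↥(tbBarF 𝔓 M)
      (1728 : IsLocalRing.ResidueField ↥𝔓.P) := by
    have h2 := (tbBaseQ hOK).res_algebraMap ⟨1728, hcP⟩
    have h3 : (tbBaseQ hOK).resA ⟨1728, hcP⟩ = (1728 : IsLocalRing.ResidueField ↥𝔓.P) := by
      show (IsLocalRing.residue ↥𝔓.P) ⟨1728, hcP⟩ = 1728
      have : (⟨1728, hcP⟩ : ↥𝔓.P) = ((1728 : ℕ) : ↥𝔓.P) := by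
        apply Subtype.ext
        push_cast
        rfl
      rw [this, map_natCast]
      norm_cast
    rw [h3] at h2
    exact h2
  have hc : (1728 : IsLocalRing.ResidueField ↥𝔓.P) ≠ 0 := by
    have h2 : ((1728 : ℕ) : IsLocalRing.ResidueField ↥𝔓.P) ≠ 0 := by
      rw [Ne, CharP.cast_eq_zero_iff (IsLocalRing.ResidueField ↥𝔓.P) 𝔓.p]
      intro hdvd
      have h3 : (1728 : ℕ) = 2 ^ 6 * 3 ^ 3 := by norm_num
      rw [h3] at hdvd
      rcases (Nat.Prime.dvd_mul 𝔓.hp).mp hdvd with h4 | h4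
      · have := (Nat.prime_dvd_prime_iff_eq 𝔓.hp Nat.prime_two).mp (𝔓.hp.dvd_of_dvd_pow h4)
        omega
      · have := (Nat.prime_dvd_prime_iff_eq 𝔓.hp Nat.prime_three).mp (𝔓.hp.dvd_of_dvd_pow h4)
        omega
    exact_mod_cast h2
  have hdeg : Module.finrank ↥((IsLocalRing.ResidueField ↥𝔓.P)⟮tbBarJ 𝔓 M⟯) ↥(tbBarF 𝔓 M) = n := by
    rw [tbq_finrank_bar hOK hM, hn]
    exact (finrank_jBar M).symm
  -- the two integrality statements on the special fibre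
  let H1 : ↥(tbOvQ 𝔓 M) := hO ^ n * (jO * (jO - cO)) ^ (n - 1)
  let H2 : ↥(tbOvQ 𝔓 M) := hO ^ n * (jO - cO) ^ n * jO
  have hb1 : IsIntegral ↥(Algebra.adjoin (IsLocalRing.ResidueField ↥𝔓.P) {tbBarJ 𝔓 M})
      (hb ^ n * (tbBarJ 𝔓 M * (tbBarJ 𝔓 M - algebraMap (IsLocalRing.ResidueField ↥𝔓.P)
        ↥(tbBarF 𝔓 M) 1728)) ^ (n - 1)) := by
    have h2 := tbq_int1 hOK (H1 : ↥(modularFunctionFieldBar M)) H1.2 hint1
    have h3 : tbResQ hOK H1 = hb ^ n * (tbBarJ 𝔓 M * (tbBarJ 𝔓 M -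
        algebraMap (IsLocalRing.ResidueField ↥𝔓.P) ↥(tbBarF 𝔓 M) 1728)) ^ (n - 1) := by
      show tbResQ hOK (hO ^ n * (jO * (jO - cO)) ^ (n - 1)) = _
      rw [map_mul, map_pow, map_pow, map_mul, map_sub, hresj, hresc]
    rw [← h3]
    exact h2
  have hb2 : IsIntegral ↥(Algebra.adjoin (IsLocalRing.ResidueField ↥𝔓.P) {(tbBarJ 𝔓 M)⁻¹})
      (hb ^ n * (tbBarJ 𝔓 M - algebraMap (IsLocalRing.ResidueField ↥𝔓.P)
        ↥(tbBarF 𝔓 M) 1728) ^ n * tbBarJ 𝔓 M) := by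
    have h2 := tbq_int2 hOK (H2 : ↥(modularFunctionFieldBar M)) H2.2 hint2
    have h3 : tbResQ hOK H2 = hb ^ n * (tbBarJ 𝔓 M -
        algebraMap (IsLocalRing.ResidueField ↥𝔓.P) ↥(tbBarF 𝔓 M) 1728) ^ n * tbBarJ 𝔓 M := by
      show tbResQ hOK (hO ^ n * (jO - cO) ^ n * jO) = _
      rw [map_mul, map_mul, map_pow, map_pow, map_sub, hresj, hresc]
    rw [← h3]
    exact h2
  intro v
  exact dll_regular_of_integral hxb hnpos hc hb hb1 hb2 v

end

end Fermat.Agent.Delta
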