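/-
DELTA / I6, package (L) (helper5), file 6: **the `q`-expansion principle in weight 2**
(`dll_lift_of_indep`): for `p ∤ M`, `p ≥ 5`, the `q`-expansion of every regular differential of the
reduced modular curve `X₀(M)` over `k = 𝔓.P/𝔪` is a `k`-linear combination of reductions of integral
cusp forms — GIVEN enough integral forms with `k`-linearly independent reductions (package (A),
`dll_indep`, helper3).

Proof: the reductions lie in `Ψ(Ω_reg)` (`dll_red_mem`), `Ψ` is injective and `k`-linear,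
`dim Ω_reg = ḡ ≤ g = dim S₂(Γ₀(M)) ≤ n`.
-/
import Mathlib
import Fermat.Agent.Lib.Delta.Lift.Reg

set_option autoImplicit false
set_option linter.unusedSectionVars false
set_option linter.unusedVariables false
set_option linter.style.haveILetI false
set_option synthInstance.maxHeartbeats 400000

namespace Fermat.Agent.Delta

open ModularCurve HahnSeries Fermat.Agent.T1 Fermat.Agent.S23Lib Fermat.Agent.Igusa
  Fermat.Agent.TW KaehlerDifferential ModularFormClass CongruenceSubgroup AlgebraicCurve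
  IntermediateField Fermat.Agent.S24Lib Fermat.Agent.T3 Fermat.Agent.Curve

local notation "Qb" => AlgebraicClosure ℚ

noncomputable section

section Generic

variable {k : Type*} [Field k] [IsAlgClosed k] (S : IntermediateField k (LaurentSeries k))
  {x : ↥S} (hx : IsFunctionFieldGen k ↥S x) [Algebra.IsSeparable ↥(k⟮x⟯) ↥S]

/-- `Ψ` as a `k`-linear map on the regular differentials -/
def dllPsiRegS : ↥(CurveP.regularDifferentials hx) →ₗ[k] LaurentSeries k where
  toFun ω := dllPsiS S (ω : Ω[↥S⁄k])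
  map_add' ω ω' := by
    rw [Submodule.coe_add, map_add]
  map_smul' c ω := by
    rw [Submodule.coe_smul, dllPsiS_smul_const, RingHom.id_apply]

theorem dllPsiRegS_apply (ω : ↥(CurveP.regularDifferentials hx)) :
    dllPsiRegS S hx ω = dllPsiS S (ω : Ω[↥S⁄k]) := rfl

end Generic

variable (𝔓 : FFPlace) (M : ℕ) [NeZero M]

/-- `Ψ` is injective -/
theorem dllPsi_injective (hM : ¬ 𝔓.p ∣ M) : Function.Injective (dllPsi 𝔓 M) := by
  haveI : IsAlgClosed (IsLocalRing.ResidueField ↥𝔓.P) := tb_isAlgClosed_residueField 𝔓.P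
  have hxb := tbq_bar_isFunctionFieldGen 𝔓 M
  haveI := tbq_bar_isSeparable (𝔓 := 𝔓) (N := M) hM
  rw [injective_iff_map_eq_zero]
  intro ω hω
  obtain ⟨h, rfl⟩ := CurveP.exists_eq_smul_D hxb ω
  rw [dllPsi_smul_D] at hω
  have hθ : qTheta ((tbBarJ 𝔓 M : ↥(tbBarF 𝔓 M)) :
      LaurentSeries (IsLocalRing.ResidueField ↥𝔓.P)) ≠ 0 :=
    thetaJ_ne_zero (IsLocalRing.ResidueField ↥𝔓.P)
  have h0 : (h : LaurentSeries (IsLocalRing.ResidueField ↥𝔓.P)) = 0 :=
    (mul_eq_zero.mp hω).resolve_right hθ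
  have : h = 0 := Subtype.ext h0
  rw [this, zero_smul]

set_option maxHeartbeats 1600000 in
/-- **the `q`-expansion principle in weight 2**, given enough independent reductions -/
theorem dll_lift_of_indep (hp5 : 5 ≤ 𝔓.p) (hM : ¬ 𝔓.p ∣ M)
    (hind : ∃ (n : ℕ) (f : Fin n → ↥(CuspForm.intLattice M 2)),
      Module.finrank ℂ (CuspForm (Gamma0 M) 2) ≤ n ∧
      LinearIndependent (IsLocalRing.ResidueField ↥𝔓.P)
        (fun i => dleRedForm 𝔓 M ((f i : ↥(CuspForm.intLattice M 2)) : CuspForm (Gamma0 M) 2)))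
    (ω : Ω[↥(tbBarF 𝔓 M)⁄(IsLocalRing.ResidueField ↥𝔓.P)])
    (hω : ∀ v : Place (IsLocalRing.ResidueField ↥𝔓.P) ↥(tbBarF 𝔓 M), 0 ≤ v.ordDifferential ω) :
    dllPsi 𝔓 M ω ∈ Submodule.span (IsLocalRing.ResidueField ↥𝔓.P)
      (Set.range fun g : ↥(CuspForm.intLattice M 2) =>
        dleRedForm 𝔓 M (g : CuspForm (Gamma0 M) 2)) := by
  classical
  haveI : IsAlgClosed (IsLocalRing.ResidueField ↥𝔓.P) := tb_isAlgClosed_residueField 𝔓.P
  have hOK := t3aOK 𝔓 M hM
  have hxb := tbq_bar_isFunctionFieldGen 𝔓 M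
  haveI := tbq_bar_isSeparable (𝔓 := 𝔓) (N := M) hM
  obtain ⟨n, f, hn, hli⟩ := hind
  -- the regular differentials with the given `q`-expansions
  have hex : ∀ i, ∃ η : ↥(CurveP.regularDifferentials hxb),
      dllPsiRegS (tbBarF 𝔓 M) hxb η = dleRedForm 𝔓 M ((f i : ↥(CuspForm.intLattice M 2)) :
        CuspForm (Gamma0 M) 2) := by
    intro i
    obtain ⟨η, hη, hη2⟩ := dll_red_mem 𝔓 M hp5 hM (f i : CuspForm (Gamma0 M) 2) (f i).2
    exact ⟨⟨η, hη⟩, hη2⟩
  choose η hη using hex
  have hliη : LinearIndependent (IsLocalRing.ResidueField ↥𝔓.P) η := by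
    refine LinearIndependent.of_comp (dllPsiRegS (tbBarF 𝔓 M) hxb) ?_
    have : (dllPsiRegS (tbBarF 𝔓 M) hxb) ∘ η = fun i => dleRedForm 𝔓 M
        ((f i : ↥(CuspForm.intLattice M 2)) : CuspForm (Gamma0 M) 2) := by
      funext i
      exact hη i
    rw [this]
    exact hli
  -- dimension count
  have hg1 : (CurveP.genusR (IsLocalRing.ResidueField ↥𝔓.P) ↥(tbBarF 𝔓 M) : ℚ) ≤
      genusFormula M := tbq_genusR_le' hOK hM
  have hg2 : (Module.finrank ℂ (CuspForm (Gamma0 M) 2) : ℚ) = genusFormula M :=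
    Fermat.Agent.S20.result M
  have hg3 : CurveP.genusR (IsLocalRing.ResidueField ↥𝔓.P) ↥(tbBarF 𝔓 M) ≤
      Module.finrank ℂ (CuspForm (Gamma0 M) 2) := by
    rw [← hg2] at hg1
    exact_mod_cast hg1
  have hfr := CurveP.finrank_regularDifferentials hxb
  haveI : FiniteDimensional (IsLocalRing.ResidueField ↥𝔓.P)
      ↥(CurveP.regularDifferentials hxb) := dll_finiteDimensional_regular hxb
  have hcard : Fintype.card (Fin n) = Module.finrank (IsLocalRing.ResidueField ↥𝔓.P)
      ↥(CurveP.regularDifferentials hxb) := by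
    have h1 := hliη.fintype_card_le_finrank
    rw [Fintype.card_fin] at h1 ⊢
    omega
  have hspan := hliη.span_eq_top_of_card_eq_finrank' hcard
  have hmem : (⟨ω, hω⟩ : ↥(CurveP.regularDifferentials hxb)) ∈
      Submodule.span (IsLocalRing.ResidueField ↥𝔓.P) (Set.range η) := by
    rw [hspan]; exact Submodule.mem_top
  have h2 := Submodule.mem_map_of_mem (f := dllPsiRegS (tbBarF 𝔓 M) hxb) hmem
  rw [Submodule.map_span] at h2
  refine Submodule.span_mono ?_ h2
  rintro _ ⟨_, ⟨i, rfl⟩, rfl⟩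
  exact ⟨f i, (hη i).symm⟩

end

end Fermat.Agent.Delta
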