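/-
DELTA / I6, package (L) (helper5), final file: **`dll_lift`, the `q`-expansion principle in
weight 2** for `X₀(M)` in characteristic `p ≥ 5`, `p ∤ M` (any `M`, rigid or not): the `q`-expansion
`Ψ(ω)` of a regular differential of the reduced modular function field `tbBarF 𝔓 M` lies in the
`k`-span of the reductions of the integral cusp forms `intLattice M 2`.

= `dll_lift_of_indep` (helper5: (LIFT-incl) + dimension count) fed with `dll_indep` (helper3: the
reductions of a `ℤ`-basis of the lattice are `k`-independent).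
-/
import Mathlib
import Fermat.Agent.Lib.Delta.Lift.Main
import Fermat.Agent.Lib.Delta.Lift.Indep

set_option autoImplicit false
set_option linter.unusedSectionVars false
set_option linter.unusedVariables false
set_option linter.style.haveILetI false
set_option synthInstance.maxHeartbeats 400000

namespace Fermat.Agent.Delta

open ModularCurve Fermat.Agent.T1 Fermat.Agent.TW KaehlerDifferential CongruenceSubgroup
  AlgebraicCurve

noncomputable section

/-- **the `q`-expansion principle in weight 2** -/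
theorem dll_lift (𝔓 : FFPlace) (hp5 : 5 ≤ 𝔓.p) (M : ℕ) [NeZero M] (hM : ¬ 𝔓.p ∣ M)
    (ω : Ω[↥(tbBarF 𝔓 M)⁄(IsLocalRing.ResidueField ↥𝔓.P)])
    (hω : ∀ v : Place (IsLocalRing.ResidueField ↥𝔓.P) ↥(tbBarF 𝔓 M), 0 ≤ v.ordDifferential ω) :
    dllPsi 𝔓 M ω ∈ Submodule.span (IsLocalRing.ResidueField ↥𝔓.P)
      (Set.range fun g : ↥(CuspForm.intLattice M 2) =>
        dleRedForm 𝔓 M (g : CuspForm (Gamma0 M) 2)) :=
  dll_lift_of_indep 𝔓 M hp5 hM (dll_indep M 𝔓) ω hω

/-- the converse inclusion: the reduction of an integral cusp form is the `q`-expansion of a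
regular differential (restated from `dll_red_mem`) -/
theorem dll_red_regular (𝔓 : FFPlace) (hp5 : 5 ≤ 𝔓.p) (M : ℕ) [NeZero M] (hM : ¬ 𝔓.p ∣ M)
    (g : ↥(CuspForm.intLattice M 2)) :
    ∃ ω : Ω[↥(tbBarF 𝔓 M)⁄(IsLocalRing.ResidueField ↥𝔓.P)],
      (∀ v : Place (IsLocalRing.ResidueField ↥𝔓.P) ↥(tbBarF 𝔓 M), 0 ≤ v.ordDifferential ω) ∧
      dllPsi 𝔓 M ω = dleRedForm 𝔓 M (g : CuspForm (Gamma0 M) 2) :=
  dll_red_mem 𝔓 M hp5 hM g g.2

end

end Fermat.Agent.Delta
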